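/-
Pole bounds of Laurent series and the echelon basis of the functions on the punctured curve.
-/
import Fermat.Agent.Jac.Base
import Mathlib.RingTheory.TensorProduct.Free
import Mathlib.LinearAlgebra.TensorProduct.Pi

set_option autoImplicit false

noncomputable section

universe u

namespace Fermat.Agent.Jac

open TensorProduct

/-- No coefficient below `m`. -/
def Below {R : Type*} [CommRing R] (m : ℤ) (x : LaurentSeries R) : Prop :=
  ∀ i : ℤ, i < m → x.coeff i = 0

section Below

variable {R S : Type*} [CommRing R] [CommRing S] {m n : ℤ} {x y : LaurentSeries R}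

theorem Below.mono (h : Below m x) (hle : n ≤ m) : Below n x := fun i hi => h i (lt_of_lt_of_le hi hle)

theorem below_zero_series (m : ℤ) : Below m (0 : LaurentSeries R) := fun _ _ => rfl

theorem Below.add (h : Below m x) (h' : Below m y) : Below m (x + y) := fun i hi => by
  rw [HahnSeries.coeff_add, h i hi, h' i hi, add_zero]

theorem Below.sub (h : Below m x) (h' : Below m y) : Below m (x - y) := fun i hi => by
  rw [HahnSeries.coeff_sub, h i hi, h' i hi, sub_zero]

theorem Below.smul (h : Below m x) (c : R) : Below m (c • x) := fun i hi => by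
  rw [HahnSeries.coeff_smul, h i hi, smul_zero]

theorem Below.sum {ι : Type*} (s : Finset ι) (f : ι → LaurentSeries R)
    (h : ∀ j ∈ s, Below m (f j)) : Below m (∑ j ∈ s, f j) := by
  classical
  induction s using Finset.induction_on with
  | empty => rw [Finset.sum_empty]; exact below_zero_series m
  | @insert a s ha ih =>
    rw [Finset.sum_insert ha]
    exact (h a (Finset.mem_insert_self a s)).add (ih fun j hj => h j (Finset.mem_insert_of_mem hj))

theorem Below.mul (h : Below m x) (h' : Below n y) : Below (m + n) (x * y) := fun i hi => by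
  rw [HahnSeries.coeff_mul]
  refine Finset.sum_eq_zero fun p hp => ?_
  have hp' := (Finset.mem_addAntidiagonal.mp hp)
  rcases lt_or_ge p.1 m with h1 | h1
  · rw [h _ h1, zero_mul]
  · rw [h' p.2 (by have := hp'.2.2; omega), mul_zero]

theorem below_ofPowerSeries (p : PowerSeries R) : Below 0 (HahnSeries.ofPowerSeries ℤ R p) :=
  fun i hi => by
    rw [HahnSeries.ofPowerSeries_apply]
    refine HahnSeries.embDomain_notin_image_support ?_
    rintro ⟨j, -, rfl⟩
    simp at hi
    omega

theorem below_C (c : R) : Below 0 (HahnSeries.C c : LaurentSeries R) := fun i hi => by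
  rw [HahnSeries.C_apply, HahnSeries.coeff_single_of_ne (by omega)]

theorem below_single (m : ℤ) (c : R) : Below m (HahnSeries.single m c) := fun i hi => by
  rw [HahnSeries.coeff_single_of_ne (by omega)]

theorem exists_below (x : LaurentSeries R) : ∃ e : ℕ, Below (-(e : ℤ)) x := by
  refine ⟨(-x.order).toNat, fun i hi => ?_⟩
  exact HahnSeries.coeff_eq_zero_of_lt_order (by omega)

theorem Below.coeffMap (h : Below m x) (f : R →+* S) : Below m (coeffMap f x) := fun i hi => by
  rw [coeffMap_coeff, h i hi, map_zero]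

theorem polar_eq_zero_iff {B : Type u} [CommRing B] {n : ℕ} {x : LaurentSeries B} :
    CurveData.polar B n x = 0 ↔ Below (1 - (n : ℤ)) x := by
  refine ⟨fun h i hi => ?_, fun h => Finsupp.ext fun j => ?_⟩
  · have h1 := DFunLike.congr_fun h ⟨(-i).toNat, by omega⟩
    rwa [CurveData.polar_apply, Finsupp.zero_apply,
      show -((⟨(-i).toNat, by omega⟩ : {j : ℕ // n ≤ j}) : ℕ) = i by
        show -(((-i).toNat : ℕ) : ℤ) = i; omega] at h1
  · rw [CurveData.polar_apply, Finsupp.zero_apply]
    exact h _ (by have := j.2; omega)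

end Below

namespace CurveData

variable {k : Type u} [Field k] (D : CurveData k)

/-- A bound beyond the gaps. -/
def gapBound : ℕ := D.gaps.sup id + 1

theorem notMem_gaps {n : ℕ} (h : D.gapBound ≤ n) : n ∉ D.gaps := fun hn => by
  have := Finset.le_sup (f := id) hn
  simp only [id, gapBound] at this h
  omega

/-- The monic function of a given pole order. -/
def monoA (n : {n : ℕ // n ∉ D.gaps}) : D.A := (D.exists_monic n.1 n.2).choose

theorem monoA_coeff (n : {n : ℕ // n ∉ D.gaps}) : (D.emb (D.monoA n)).coeff (-(n.1 : ℤ)) = 1 :=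
  (D.exists_monic n.1 n.2).choose_spec.1

theorem monoA_below (n : {n : ℕ // n ∉ D.gaps}) : Below (-(n.1 : ℤ)) (D.emb (D.monoA n)) :=
  (D.exists_monic n.1 n.2).choose_spec.2

theorem mem_span_monoA (n : ℕ) {a : D.A} (ha : Below (1 - (n : ℤ)) (D.emb a)) :
    a ∈ Submodule.span k (Set.range D.monoA) := by
  induction n generalizing a with
  | zero =>
    obtain ⟨r, rfl⟩ := D.eq_const a fun i hi => ha i (by omega)
    have h0 : r = 0 := by
      have := ha 0 (by norm_num)
      simpa [HahnSeries.algebraMap_apply, HahnSeries.C_apply] using this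
    rw [h0, map_zero]
    exact zero_mem _
  | succ n ih =>
    by_cases hn : n ∈ D.gaps
    · refine ih fun i hi => ?_
      rcases eq_or_ne i (-(n : ℤ)) with rfl | hne
      · exact D.coeff_gap a n hn fun j hj => ha j (by omega)
      · exact ha i (by omega)
    set c := (D.emb a).coeff (-(n : ℤ))
    have hc : Below (1 - (n : ℤ)) (D.emb (a - c • D.monoA ⟨n, hn⟩)) := fun i hi => by
      rw [map_sub, map_smul, HahnSeries.coeff_sub, HahnSeries.coeff_smul]
      rcases eq_or_ne i (-(n : ℤ)) with rfl | hne
      · rw [D.monoA_coeff ⟨n, hn⟩, smul_eq_mul, mul_one, sub_self]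
      · rw [ha i (by omega), D.monoA_below ⟨n, hn⟩ i (by show i < -(n : ℤ); omega), smul_zero,
          sub_zero]
    have := add_mem (ih hc) (Submodule.smul_mem _ c
      (Submodule.subset_span ⟨⟨n, hn⟩, rfl⟩ : D.monoA ⟨n, hn⟩ ∈ Submodule.span k (Set.range D.monoA)))
    rwa [sub_add_cancel] at this

theorem span_monoA : ⊤ ≤ Submodule.span k (Set.range D.monoA) := fun a _ => by
  obtain ⟨e, he⟩ := exists_below (D.emb a)
  exact D.mem_span_monoA (e + 1) (he.mono (by push_cast; omega))

variable (B : Type u) [CommRing B] [Algebra k B]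

/-- The echelon family in Laurent series. -/
def monoB (n : {n : ℕ // n ∉ D.gaps}) : LaurentSeries B :=
  coeffMap (algebraMap k B) (D.emb (D.monoA n))

theorem embB_tmul (b : B) (a : D.A) :
    D.embB B (b ⊗ₜ a) = b • coeffMap (algebraMap k B) (D.emb a) := by
  rw [embB, Algebra.TensorProduct.lift_tmul, Algebra.smul_def]
  rfl

theorem monoB_coeff (n : {n : ℕ // n ∉ D.gaps}) : (D.monoB B n).coeff (-(n.1 : ℤ)) = 1 := by
  rw [monoB, coeffMap_coeff, D.monoA_coeff, map_one]

theorem monoB_below (n : {n : ℕ // n ∉ D.gaps}) : Below (-(n.1 : ℤ)) (D.monoB B n) :=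
  (D.monoA_below n).coeffMap _

theorem monoB_mem_reg (n : {n : ℕ // n ∉ D.gaps}) : D.monoB B n ∈ D.reg B :=
  ⟨1 ⊗ₜ D.monoA n, by
    show D.embB B _ = _
    rw [embB_tmul, one_smul]; rfl⟩

variable {B}

/-- An echelon combination with no coefficient from pole order `m` on involves no term from `m` on. -/
theorem eq_zero_of_echelon (c : {n : ℕ // n ∉ D.gaps} →₀ B) (m : ℕ)
    (h : ∀ j : {n : ℕ // n ∉ D.gaps}, m ≤ j.1 →
      (Finsupp.linearCombination B (D.monoB B) c).coeff (-(j.1 : ℤ)) = 0) :
    ∀ j : {n : ℕ // n ∉ D.gaps}, m ≤ j.1 → c j = 0 := by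
  classical
  intro j hj
  by_contra hc
  obtain ⟨J, hJ, hmax⟩ := (c.support.filter fun i => m ≤ i.1).exists_max_image (fun i => i.1)
    ⟨j, Finset.mem_filter.mpr ⟨Finsupp.mem_support_iff.mpr hc, hj⟩⟩
  rw [Finset.mem_filter, Finsupp.mem_support_iff] at hJ
  have h1 := h J hJ.2
  rw [Finsupp.linearCombination_apply, Finsupp.sum, HahnSeries.coeff_sum,
    Finset.sum_eq_single J ?_ ?_, HahnSeries.coeff_smul, D.monoB_coeff, smul_eq_mul, mul_one] at h1
  · exact hJ.1 h1
  · intro i hi hne
    rw [HahnSeries.coeff_smul]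
    rcases lt_or_ge i.1 J.1 with hlt | hge
    · rw [D.monoB_below B i _ (by omega), smul_zero]
    · have h2 := hmax i (Finset.mem_filter.mpr ⟨hi, hJ.2.trans hge⟩)
      exact absurd (Subtype.ext (le_antisymm h2 hge)) hne
  · intro hnm
    rw [Finsupp.notMem_support_iff.mp hnm, zero_smul, HahnSeries.coeff_zero]

theorem linearIndependent_monoB : LinearIndependent B (D.monoB B) :=
  linearIndependent_iff.mpr fun c hc => Finsupp.ext fun j =>
    D.eq_zero_of_echelon c 0 (fun i _ => by rw [hc]; rfl) j (Nat.zero_le _)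

theorem linearIndependent_monoA : LinearIndependent k D.monoA :=
  linearIndependent_iff.mpr fun c hc => by
    have key : ∀ c : {n : ℕ // n ∉ D.gaps} →₀ k,
        Finsupp.linearCombination k (D.monoB k) c = D.emb (Finsupp.linearCombination k D.monoA c) :=
      fun c => by
        induction c using Finsupp.induction_linear with
        | zero => rw [map_zero, map_zero, map_zero]
        | add f g hf hg => rw [map_add, map_add, map_add, hf, hg]
        | single j r =>
          rw [Finsupp.linearCombination_single, Finsupp.linearCombination_single, map_smul]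
          ext i
          simp only [HahnSeries.coeff_smul, monoB, coeffMap_coeff, Algebra.algebraMap_self,
            RingHom.id_apply]
    exact linearIndependent_iff.mp (D.linearIndependent_monoB (B := k)) c
      (by rw [key, hc, map_zero])

/-- The echelon basis of the coordinate ring. -/
def basisA : Module.Basis {n : ℕ // n ∉ D.gaps} k D.A :=
  Module.Basis.mk D.linearIndependent_monoA D.span_monoA

theorem embB_eq_linearCombination (x : D.Coord B) :
    D.embB B x = Finsupp.linearCombination B (D.monoB B)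
      ((Algebra.TensorProduct.basis B D.basisA).repr x) := by
  conv_lhs => rw [← (Algebra.TensorProduct.basis B D.basisA).linearCombination_repr x]
  rw [← AlgHom.toLinearMap_apply, Finsupp.apply_linearCombination]
  refine congrArg (fun f => Finsupp.linearCombination B f _) (funext fun n => ?_)
  simp only [Function.comp_apply, Algebra.TensorProduct.basis_apply, AlgHom.toLinearMap_apply,
    embB_tmul, one_smul, basisA, Module.Basis.mk_apply, monoB]

theorem embB_injective_aux : Function.Injective (D.embB B) :=
  fun x y hxy => (Algebra.TensorProduct.basis B D.basisA).repr.injective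
    (D.linearIndependent_monoB (B := B) (by
      rw [← embB_eq_linearCombination, ← embB_eq_linearCombination]
      exact hxy))

theorem exists_linearCombination {x : LaurentSeries B} (hx : x ∈ D.reg B) :
    ∃ c, Finsupp.linearCombination B (D.monoB B) c = x := by
  obtain ⟨y, rfl⟩ := hx
  exact ⟨_, (D.embB_eq_linearCombination y).symm⟩

/-- Coefficients on the pole orders below `m` which are not gaps. -/
abbrev RegIdx (m : ℕ) : Type := {j : Fin m // j.1 ∉ D.gaps}

variable (B) in
/-- The functions with pole order less than `m`. -/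
def regPart (m : ℕ) : (D.RegIdx m → B) →ₗ[B] LaurentSeries B :=
  Fintype.linearCombination B fun j => D.monoB B ⟨j.1.1, j.2⟩

theorem regPart_apply (m : ℕ) (c : D.RegIdx m → B) :
    D.regPart B m c = ∑ j, c j • D.monoB B ⟨j.1.1, j.2⟩ := Fintype.linearCombination_apply B _ c

theorem regPart_mem_reg (m : ℕ) (c : D.RegIdx m → B) : D.regPart B m c ∈ D.reg B := by
  rw [regPart_apply]
  exact sum_mem fun j _ => Subalgebra.smul_mem _ (D.monoB_mem_reg B _) _

theorem regPart_below (m : ℕ) (c : D.RegIdx m → B) : Below (1 - (m : ℤ)) (D.regPart B m c) := by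
  rw [regPart_apply]
  exact Below.sum _ _ fun j _ => ((D.monoB_below B _).mono (by
    show 1 - (m : ℤ) ≤ -((j.1.1 : ℕ) : ℤ)
    have := j.1.2
    omega)).smul _

theorem regPart_injective (m : ℕ) : Function.Injective (D.regPart B m) := by
  have h : LinearIndependent B fun j : D.RegIdx m => D.monoB B ⟨j.1.1, j.2⟩ :=
    D.linearIndependent_monoB.comp (fun j : D.RegIdx m => (⟨j.1.1, j.2⟩ : {n : ℕ // n ∉ D.gaps}))
      fun i j e => Subtype.ext (Fin.ext (congrArg Subtype.val e))
  refine (injective_iff_map_eq_zero _).mpr fun c hc => funext ?_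
  rw [regPart_apply] at hc
  exact Fintype.linearIndependent_iff.mp h c hc

theorem exists_regPart {m : ℕ} {x : LaurentSeries B} (hx : x ∈ D.reg B)
    (h : Below (1 - (m : ℤ)) x) : ∃ c, D.regPart B m c = x := by
  classical
  obtain ⟨c, rfl⟩ := D.exists_linearCombination hx
  have hc := D.eq_zero_of_echelon c m fun j hj => h _ (by omega)
  refine ⟨fun j => c ⟨j.1.1, j.2⟩, ?_⟩
  rw [regPart_apply, Finsupp.linearCombination_apply, Finsupp.sum]
  refine (Finset.sum_bij_ne_zero (fun j _ _ => (⟨j.1.1, j.2⟩ : {n : ℕ // n ∉ D.gaps}))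
    (fun j _ hj => Finsupp.mem_support_iff.mpr fun h0 => hj (by rw [h0, zero_smul]))
    (fun i _ _ j _ _ e => Subtype.ext (Fin.ext (congrArg Subtype.val e)))
    (fun i hi _ => ?_) fun j _ _ => rfl)
  have hlt : i.1 < m := by
    by_contra hge
    exact Finsupp.mem_support_iff.mp hi (hc i (by omega))
  exact ⟨⟨⟨i.1, hlt⟩, i.2⟩, Finset.mem_univ _, ‹_›, rfl⟩

theorem coeffMap_regPart {B' : Type u} [CommRing B'] [Algebra k B'] (φ : B →ₐ[k] B') (m : ℕ)
    (c : D.RegIdx m → B) :
    coeffMapₐ φ (D.regPart B m c) = D.regPart B' m (fun j => φ (c j)) := by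
  rw [regPart_apply, regPart_apply, map_sum]
  refine Finset.sum_congr rfl fun j _ => ?_
  ext i
  simp [monoB]

theorem card_regIdx {n : ℕ} (hn : D.gapBound ≤ n) : Fintype.card (D.RegIdx n) + D.genus = n := by
  classical
  have h1 := Finset.card_sdiff_add_card_eq_card (s := D.gaps) (t := Finset.range n) fun i hi =>
    Finset.mem_range.mpr (by
      by_contra h
      exact D.notMem_gaps (hn.trans (not_lt.mp h)) hi)
  rw [Finset.card_range] at h1
  rw [genus, show Fintype.card (D.RegIdx n) = (Finset.range n \ D.gaps).card from ?_, h1]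
  rw [Fintype.card_subtype]
  refine Finset.card_bij (fun j _ => j.1) (fun j hj => ?_) (fun i _ j _ e => Fin.ext e)
    fun i hi => ?_
  · simpa using (Finset.mem_filter.mp hj).2
  · simp only [Finset.mem_sdiff, Finset.mem_range] at hi
    exact ⟨⟨i, hi.1⟩, by simpa using hi.2, rfl⟩

/-- Modulo functions, series have bounded pole order. -/
theorem exists_reg_sub_below (x : LaurentSeries B) :
    ∃ r ∈ D.reg B, Below (1 - (D.gapBound : ℤ)) (x - r) := by
  suffices key : ∀ (e : ℕ) (x : LaurentSeries B), Below (1 - ((D.gapBound + e : ℕ) : ℤ)) x →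
      ∃ r ∈ D.reg B, Below (1 - (D.gapBound : ℤ)) (x - r) by
    obtain ⟨e, he⟩ := exists_below x
    exact key (e + 1) x (he.mono (by push_cast; omega))
  intro e
  induction e with
  | zero => exact fun x hx => ⟨0, zero_mem _, by rwa [sub_zero]⟩
  | succ e ih =>
    intro x hx
    have hn := D.notMem_gaps (n := D.gapBound + e) (Nat.le_add_right _ _)
    set c := x.coeff (-((D.gapBound + e : ℕ) : ℤ))
    obtain ⟨r, hr, hxr⟩ := ih (x - c • D.monoB B ⟨_, hn⟩) fun i hi => by
      rw [HahnSeries.coeff_sub, HahnSeries.coeff_smul]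
      rcases eq_or_ne i (-((D.gapBound + e : ℕ) : ℤ)) with rfl | hne
      · rw [D.monoB_coeff B ⟨_, hn⟩, smul_eq_mul, mul_one, sub_self]
      · rw [hx i (by push_cast at *; omega),
          D.monoB_below B ⟨_, hn⟩ i (by show i < -((D.gapBound + e : ℕ) : ℤ); omega),
          smul_zero, sub_zero]
    refine ⟨c • D.monoB B ⟨_, hn⟩ + r,
      add_mem (Subalgebra.smul_mem _ (D.monoB_mem_reg B _) c) hr, ?_⟩
    rwa [← sub_sub]

end CurveData

end Fermat.Agent.Jac
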