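/-
Generators of an invertible submodule, the splitting of polar parts, base change of the parts.
-/
import Fermat.Agent.Jac.Lat.Echelon
import Mathlib.Algebra.Module.Projective
import Mathlib.LinearAlgebra.TensorProduct.Pi
import Mathlib.RingTheory.TensorProduct.Finite

set_option autoImplicit false
set_option linter.style.haveILetI false

noncomputable section

universe u

namespace Fermat.Agent.Jac

open TensorProduct

namespace CurveData

variable {k : Type u} [Field k] {D : CurveData k} {B B' : Type u} [CommRing B] [Algebra k B]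
  [CommRing B'] [Algebra k B']

theorem Lat.reg_mul_mem (W : D.Lat B) {r x : LaurentSeries B} (hr : r ∈ D.reg B)
    (hx : x ∈ W.toBase) : r * x ∈ W.toBase :=
  (W : Submodule (D.reg B) (LaurentSeries B)).smul_mem ⟨r, hr⟩ hx

theorem Lat.mul_inv_mem (W : D.Lat B) {x y : LaurentSeries B} (hx : x ∈ W.toBase)
    (hy : y ∈ (W⁻¹).toBase) : x * y ∈ D.reg B := by
  have h : x * y ∈ (W : Submodule (D.reg B) (LaurentSeries B)) *
      ((W⁻¹ : D.Lat B) : Submodule (D.reg B) (LaurentSeries B)) := Submodule.mul_mem_mul hx hy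
  rw [← Units.val_mul, mul_inv_cancel, Units.val_one, Submodule.mem_one] at h
  obtain ⟨r, hr⟩ := h
  rw [← hr]
  exact r.2

/-- Generators of a line bundle and of its inverse, with a common pole bound. -/
structure Lat.Gens (W : D.Lat B) where
  /-- The number of generators. -/
  r : ℕ
  /-- The generators of the inverse. -/
  v : Fin r → LaurentSeries B
  /-- The generators. -/
  w : Fin r → LaurentSeries B
  v_mem : ∀ i, v i ∈ (W⁻¹).toBase
  w_mem : ∀ i, w i ∈ W.toBase
  sum_eq : ∑ i, v i * w i = 1
  /-- The pole bound. -/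
  e : ℕ
  v_below : ∀ i, Below (-(e : ℤ)) (v i)
  w_below : ∀ i, Below (-(e : ℤ)) (w i)

theorem Lat.nonempty_gens (W : D.Lat B) : Nonempty W.Gens := by
  suffices key : ∃ (r : ℕ) (v w : Fin r → LaurentSeries B), (∀ i, v i ∈ (W⁻¹).toBase) ∧
      (∀ i, w i ∈ W.toBase) ∧ ∑ i, v i * w i = 1 by
    obtain ⟨r, v, w, hv, hw, he⟩ := key
    choose a ha using fun i => exists_below (v i)
    choose b hb using fun i => exists_below (w i)
    refine ⟨⟨r, v, w, hv, hw, he, ∑ i, a i + ∑ i, b i, fun i => (ha i).mono ?_,
      fun i => (hb i).mono ?_⟩⟩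
    · have := Finset.single_le_sum (f := a) (fun _ _ => Nat.zero_le _) (Finset.mem_univ i)
      omega
    · have := Finset.single_le_sum (f := b) (fun _ _ => Nat.zero_le _) (Finset.mem_univ i)
      omega
  have h1 : (1 : LaurentSeries B) ∈ ((W⁻¹ : D.Lat B) : Submodule (D.reg B) (LaurentSeries B)) *
      (W : Submodule (D.reg B) (LaurentSeries B)) := by
    rw [← Units.val_mul, inv_mul_cancel, Units.val_one]
    exact Submodule.one_le.mp le_rfl
  refine Submodule.mul_induction_on h1 (C := fun z => ∃ (r : ℕ) (v w : Fin r → LaurentSeries B),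
    (∀ i, v i ∈ (W⁻¹).toBase) ∧ (∀ i, w i ∈ W.toBase) ∧ ∑ i, v i * w i = z) (fun v hv w hw => ?_)
    (fun x y hx hy => ?_)
  · exact ⟨1, fun _ => v, fun _ => w, fun _ => hv, fun _ => hw, by simp⟩
  · obtain ⟨r, v, w, hv, hw, rfl⟩ := hx
    obtain ⟨r', v', w', hv', hw', rfl⟩ := hy
    exact ⟨r + r', Fin.append v v', Fin.append w w',
      fun i => Fin.addCases (fun j => by rw [Fin.append_left]; exact hv j)
        (fun j => by rw [Fin.append_right]; exact hv' j) i,
      fun i => Fin.addCases (fun j => by rw [Fin.append_left]; exact hw j)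
        (fun j => by rw [Fin.append_right]; exact hw' j) i,
      by simp [Fin.sum_univ_add]⟩

theorem Lat.mem_part {W : D.Lat B} {n : ℕ} {x : LaurentSeries B} :
    x ∈ W.part n ↔ x ∈ W.toBase ∧ Below (1 - (n : ℤ)) x := by
  rw [Lat.part, Submodule.mem_inf, LinearMap.mem_ker, polar_eq_zero_iff]

theorem Lat.exists_polar_eq (W : D.Lat B) :
    ∃ N : ℕ, ∀ n : ℕ, N ≤ n → Function.Surjective ((polar B n).comp W.toBase.subtype) := by
  obtain ⟨G⟩ := W.nonempty_gens
  refine ⟨D.gapBound + G.e, fun n hn ψ => ?_⟩
  set x : LaurentSeries B := ∑ j ∈ ψ.support, HahnSeries.single (-(j.1 : ℤ)) (ψ j)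
  have hx : polar B n x = ψ := Finsupp.ext fun j => by
    rw [polar_apply, HahnSeries.coeff_sum, Finset.sum_eq_single j (fun i _ hne => ?_) (fun h => ?_),
      HahnSeries.coeff_single_same]
    · rw [HahnSeries.coeff_single_of_ne fun e => hne (Subtype.ext (by omega))]
    · rw [Finsupp.notMem_support_iff.mp h, map_zero, HahnSeries.coeff_zero]
  choose r hr hxr using fun i => D.exists_reg_sub_below (x * G.v i)
  have hz : ∑ i, r i * G.w i ∈ W.toBase := sum_mem fun i _ => W.reg_mul_mem (hr i) (G.w_mem i)
  refine ⟨⟨_, hz⟩, ?_⟩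
  rw [LinearMap.comp_apply, Submodule.subtype_apply, ← hx]
  have hd : x - ∑ i, r i * G.w i = ∑ i, (x * G.v i - r i) * G.w i := by
    simp only [sub_mul, Finset.sum_sub_distrib, mul_assoc, ← Finset.mul_sum, G.sum_eq, mul_one]
  have hb : Below (1 - (n : ℤ)) (x - ∑ i, r i * G.w i) := by
    rw [hd]
    exact Below.sum _ _ fun i _ => ((hxr i).mul (G.w_below i)).mono (by omega)
  rw [← polar_eq_zero_iff, map_sub, sub_eq_zero] at hb
  exact hb.symm

section Split

variable (W : D.Lat B) {n : ℕ} (hn : Function.Surjective ((polar B n).comp W.toBase.subtype))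

/-- A section of the polar parts. -/
def Lat.sec : ({j : ℕ // n ≤ j} →₀ B) →ₗ[B] LaurentSeries B :=
  Finsupp.linearCombination B fun j => ((hn (Finsupp.single j 1)).choose : LaurentSeries B)

theorem Lat.sec_mem (ψ : {j : ℕ // n ≤ j} →₀ B) : W.sec hn ψ ∈ W.toBase := by
  rw [Lat.sec, Finsupp.linearCombination_apply]
  exact sum_mem fun j _ => W.toBase.smul_mem _ (Subtype.mem _)

theorem Lat.polar_sec (ψ : {j : ℕ // n ≤ j} →₀ B) : polar B n (W.sec hn ψ) = ψ := by
  induction ψ using Finsupp.induction_linear with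
  | zero => rw [map_zero, map_zero]
  | add a b ha hb => rw [map_add, map_add, ha, hb]
  | single j b =>
    rw [Lat.sec, Finsupp.linearCombination_single, map_smul,
      show polar B n ((hn (Finsupp.single j 1)).choose : LaurentSeries B) = Finsupp.single j 1 from
        (hn (Finsupp.single j 1)).choose_spec, Finsupp.smul_single, smul_eq_mul, mul_one]

/-- The projection onto a part. -/
def Lat.retr : LaurentSeries B →ₗ[B] LaurentSeries B :=
  LinearMap.id - (W.sec hn).comp (polar B n)

theorem Lat.retr_mem {x : LaurentSeries B} (hx : x ∈ W.toBase) : W.retr hn x ∈ W.part n := by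
  refine ⟨sub_mem hx (W.sec_mem hn _), ?_⟩
  simp [Lat.retr, W.polar_sec hn]

theorem Lat.retr_eq {x : LaurentSeries B} (hx : x ∈ W.part n) : W.retr hn x = x := by
  simp [Lat.retr, LinearMap.mem_ker.mp hx.2]

variable {W}

/-- Coordinates of a part in a finite free module, through the generators. -/
theorem Lat.Gens.exists_coord (G : W.Gens) (n : ℕ) :
    ∃ c : W.part n →ₗ[B] (Fin G.r → D.RegIdx (n + G.e) → B),
      ∀ x i, D.regPart B (n + G.e) (c x i) = (x : LaurentSeries B) * G.v i := by
  have h : ∀ (x : W.part n) (i : Fin G.r),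
      (x : LaurentSeries B) * G.v i ∈ LinearMap.range (D.regPart B (n + G.e)) := fun x i => by
    obtain ⟨hx, hb⟩ := Lat.mem_part.mp x.2
    exact D.exists_regPart (W.mul_inv_mem hx (G.v_mem i))
      ((hb.mul (G.v_below i)).mono (by push_cast; omega))
  let e := LinearEquiv.ofInjective (D.regPart B (n + G.e)) (D.regPart_injective _)
  let m : Fin G.r → (W.part n →ₗ[B] LinearMap.range (D.regPart B (n + G.e))) := fun i =>
    LinearMap.codRestrict _ ((LinearMap.mulRight B (G.v i)).comp (W.part n).subtype) fun x => h x i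
  refine ⟨LinearMap.pi fun i => e.symm.toLinearMap.comp (m i), fun x i => ?_⟩
  show D.regPart B (n + G.e) (e.symm (m i x)) = _
  rw [← LinearEquiv.ofInjective_apply (h := D.regPart_injective (n + G.e)),
    LinearEquiv.apply_symm_apply]
  rfl

/-- A part is a direct summand of a finite free module. -/
theorem Lat.Gens.exists_split (G : W.Gens) (hn : Function.Surjective ((polar B n).comp W.toBase.subtype)) :
    ∃ (c : W.part n →ₗ[B] (Fin G.r → D.RegIdx (n + G.e) → B))
      (s : (Fin G.r → D.RegIdx (n + G.e) → B) →ₗ[B] W.part n), s.comp c = LinearMap.id ∧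
      ∀ x i, D.regPart B (n + G.e) (c x i) = (x : LaurentSeries B) * G.v i := by
  obtain ⟨c, hc⟩ := G.exists_coord n
  let β : (Fin G.r → D.RegIdx (n + G.e) → B) →ₗ[B] LaurentSeries B :=
    ∑ i, (LinearMap.mulRight B (G.w i)).comp ((D.regPart B (n + G.e)).comp (LinearMap.proj i))
  have hβ : ∀ z, β z ∈ W.toBase := fun z => by
    simp only [β, LinearMap.sum_apply, LinearMap.comp_apply, LinearMap.mulRight_apply,
      LinearMap.proj_apply]
    exact sum_mem fun i _ => W.reg_mul_mem (D.regPart_mem_reg _ _) (G.w_mem i)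
  refine ⟨c, LinearMap.codRestrict _ ((W.retr hn).comp β) fun z => W.retr_mem hn (hβ z),
    LinearMap.ext fun x => Subtype.ext ?_, hc⟩
  have hcx : β (c x) = x := by
    simp only [β, LinearMap.sum_apply, LinearMap.comp_apply, LinearMap.mulRight_apply,
      LinearMap.proj_apply, hc, mul_assoc, ← Finset.mul_sum, G.sum_eq, mul_one]
  show W.retr hn (β (c x)) = x
  rw [hcx]
  exact W.retr_eq hn x.2

theorem Lat.part_finite_and_projective
    (hn : Function.Surjective ((polar B n).comp W.toBase.subtype)) :
    Module.Finite B (W.part n) ∧ Module.Projective B (W.part n) := by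
  obtain ⟨G⟩ := W.nonempty_gens
  obtain ⟨c, s, hs, -⟩ := G.exists_split hn
  refine ⟨Module.Finite.of_surjective s fun x => ⟨c x, ?_⟩, Module.Projective.of_split c s hs⟩
  exact LinearMap.congr_fun hs x

end Split

theorem coeffMapₐ_smul (φ : B →ₐ[k] B') (b : B) (x : LaurentSeries B) :
    coeffMapₐ φ (b • x) = φ b • coeffMapₐ φ x := by
  ext i; simp

/-- The base change is spanned over the base ring by the image. -/
theorem latMap_toBase (φ : B →ₐ[k] B') (W : D.Lat B) :
    (D.latMap φ W).toBase =
      Submodule.span B' (coeffMapₐ φ '' (W.toBase : Set (LaurentSeries B))) := by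
  set S := Submodule.span B' (coeffMapₐ φ '' (W.toBase : Set (LaurentSeries B)))
  refine le_antisymm (fun x hx => ?_)
    (Submodule.span_le.mpr fun _ ⟨x, hx, e⟩ => e ▸ D.coeffMapₐ_mem_latMap φ hx)
  have hstable : ∀ r ∈ D.reg B', ∀ y ∈ S, r * y ∈ S := fun r hr y hy => by
    obtain ⟨c, rfl⟩ := D.exists_linearCombination hr
    rw [Finsupp.linearCombination_apply, Finsupp.sum, Finset.sum_mul]
    refine sum_mem fun j _ => ?_
    rw [smul_mul_assoc]
    refine S.smul_mem _ ?_
    induction hy using Submodule.span_induction with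
    | mem z hz =>
      obtain ⟨w, hw, rfl⟩ := hz
      refine Submodule.subset_span ⟨D.monoB B j * w, W.reg_mul_mem (D.monoB_mem_reg B j) hw, ?_⟩
      rw [map_mul]
      congr 1
      ext i
      simp [monoB]
    | zero => rw [mul_zero]; exact zero_mem _
    | add y z _ _ hy hz => rw [mul_add]; exact add_mem hy hz
    | smul b y _ hy => rw [mul_smul_comm]; exact S.smul_mem b hy
  change x ∈ Submodule.span (D.reg B') (coeffMapₐ φ '' (W : Set (LaurentSeries B))) at hx
  induction hx using Submodule.span_induction with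
  | mem z hz => exact Submodule.subset_span hz
  | zero => exact zero_mem _
  | add y z _ _ hy hz => exact add_mem hy hz
  | smul r y _ hy => exact hstable r r.2 y hy

theorem polar_coeffMapₐ (φ : B →ₐ[k] B') (n : ℕ) (x : LaurentSeries B) :
    polar B' n (coeffMapₐ φ x) =
      (polar B n x).mapRange (φ : B → B') (map_zero φ) := Finsupp.ext fun j => by simp

section BaseChange

variable (φ : B →ₐ[k] B') (W : D.Lat B) {n : ℕ}

theorem Lat.surjective_polar_latMap
    (hn : Function.Surjective ((polar B n).comp W.toBase.subtype)) :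
    Function.Surjective ((polar B' n).comp (D.latMap φ W).toBase.subtype) := by
  rw [← LinearMap.range_eq_top, eq_top_iff]
  rintro ψ -
  rw [← ψ.sum_single]
  refine sum_mem fun j _ => ?_
  obtain ⟨⟨w, hw⟩, hwj⟩ := hn (Finsupp.single j 1)
  rw [LinearMap.comp_apply, Submodule.subtype_apply] at hwj
  refine ⟨(ψ j) • ⟨coeffMapₐ φ w, D.coeffMapₐ_mem_latMap φ hw⟩, ?_⟩
  rw [map_smul, LinearMap.comp_apply, Submodule.subtype_apply, polar_coeffMapₐ, hwj,
    Finsupp.mapRange_single, map_one, Finsupp.smul_single_one]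

theorem Lat.part_latMap (hn : Function.Surjective ((polar B n).comp W.toBase.subtype)) :
    (D.latMap φ W).part n =
      Submodule.span B' (coeffMapₐ φ '' (W.part n : Set (LaurentSeries B))) := by
  refine le_antisymm (fun x hx => ?_) (Submodule.span_le.mpr ?_)
  · set s : ({j : ℕ // n ≤ j} →₀ B') →ₗ[B'] LaurentSeries B' :=
      Finsupp.linearCombination B' fun j => coeffMapₐ φ (W.sec hn (Finsupp.single j 1))
    have hs : ∀ ψ, coeffMapₐ φ (W.sec hn ψ) = s (ψ.mapRange (φ : B → B') (map_zero φ)) := fun ψ => by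
      induction ψ using Finsupp.induction_linear with
      | zero => simp
      | add a b ha hb =>
        rw [map_add, map_add, ha, hb, Finsupp.mapRange_add (fun x y => map_add φ x y), map_add]
      | single j b =>
        rw [Finsupp.mapRange_single, Finsupp.linearCombination_single, ← coeffMapₐ_smul, ← map_smul,
          Finsupp.smul_single, smul_eq_mul, mul_one]
    have key : ∀ y ∈ (D.latMap φ W).toBase, y - s (polar B' n y) ∈
        Submodule.span B' (coeffMapₐ φ '' (W.part n : Set (LaurentSeries B))) := fun y hy => by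
      rw [latMap_toBase] at hy
      induction hy using Submodule.span_induction with
      | mem z hz =>
        obtain ⟨w, hw, rfl⟩ := hz
        refine Submodule.subset_span ⟨W.retr hn w, W.retr_mem hn hw, ?_⟩
        rw [polar_coeffMapₐ, ← hs, Lat.retr, LinearMap.sub_apply, LinearMap.id_apply, map_sub,
          LinearMap.comp_apply]
      | zero => simp
      | add y z _ _ hy hz =>
        rw [map_add, map_add, add_sub_add_comm]
        exact add_mem hy hz
      | smul b y _ hy =>
        rw [map_smul, map_smul, ← smul_sub]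
        exact Submodule.smul_mem _ b hy
    have := key x hx.1
    rwa [LinearMap.mem_ker.mp hx.2, map_zero, sub_zero] at this
  · rintro _ ⟨x, hx, rfl⟩
    rw [SetLike.mem_coe, Lat.mem_part] at hx ⊢
    exact ⟨D.coeffMapₐ_mem_latMap φ hx.1, hx.2.coeffMap _⟩

end BaseChange

/-- Parts commute with base change. -/
theorem Lat.nonempty_baseChangeEquiv [Algebra B B'] [IsScalarTower k B B'] (W : D.Lat B) {n : ℕ}
    (hn : Function.Surjective ((polar B n).comp W.toBase.subtype)) :
    Nonempty (TensorProduct B B' (W.part n) ≃ₗ[B']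
      (D.latMap (IsScalarTower.toAlgHom k B B') W).part n) := by
  set φ := IsScalarTower.toAlgHom k B B'
  haveI : IsScalarTower B B' (LaurentSeries B') := IsScalarTower.of_algebraMap_eq fun b => by
    ext i
    simp [HahnSeries.algebraMap_apply, HahnSeries.C_apply, HahnSeries.coeff_single]
  let cm : LaurentSeries B →ₗ[B] LaurentSeries B' :=
    { toFun := coeffMapₐ φ
      map_add' := map_add _
      map_smul' := fun b x => by
        rw [RingHom.id_apply, coeffMapₐ_smul, ← algebraMap_smul B' b (coeffMapₐ φ x)]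
        rfl }
  let Φ : TensorProduct B B' (W.part n) →ₗ[B'] LaurentSeries B' :=
    LinearMap.liftBaseChange B' (cm.comp (W.part n).subtype)
  have hΦ : ∀ b x, Φ (b ⊗ₜ x) = b • coeffMapₐ φ (x : LaurentSeries B) := fun b x =>
    LinearMap.liftBaseChange_tmul ..
  have hrange : LinearMap.range Φ = (D.latMap φ W).part n := by
    rw [W.part_latMap φ hn]
    refine le_antisymm ?_ (Submodule.span_le.mpr fun _ ⟨x, hx, e⟩ => ⟨1 ⊗ₜ ⟨x, hx⟩, by
      rw [hΦ, one_smul, e]⟩)
    rintro _ ⟨t, rfl⟩
    induction t using TensorProduct.induction_on with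
    | zero => rw [map_zero]; exact zero_mem _
    | add a b ha hb => rw [map_add]; exact add_mem ha hb
    | tmul b x => rw [hΦ]; exact Submodule.smul_mem _ b (Submodule.subset_span ⟨x, x.2, rfl⟩)
  obtain ⟨G⟩ := W.nonempty_gens
  obtain ⟨c, s, hs, hc⟩ := G.exists_split hn
  let cu := LinearEquiv.curry B B (Fin G.r) (D.RegIdx (n + G.e))
  let c₂ : W.part n →ₗ[B] (Fin G.r × D.RegIdx (n + G.e) → B) := cu.symm.toLinearMap.comp c
  let s₂ : (Fin G.r × D.RegIdx (n + G.e) → B) →ₗ[B] W.part n := s.comp cu.toLinearMap
  have hs₂ : s₂.comp c₂ = LinearMap.id := LinearMap.ext fun x => by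
    show s (cu (cu.symm (c x))) = x
    rw [LinearEquiv.apply_symm_apply]
    exact LinearMap.congr_fun hs x
  let co : TensorProduct B B' (W.part n) →ₗ[B'] (Fin G.r × D.RegIdx (n + G.e) → B') :=
    (TensorProduct.piScalarRight B B' B' (Fin G.r × D.RegIdx (n + G.e))).toLinearMap.comp
      (c₂.baseChange B')
  have hco : ∀ t i, D.regPart B' (n + G.e) (fun j => co t (i, j)) = Φ t * coeffMapₐ φ (G.v i) :=
    fun t i => by
      induction t using TensorProduct.induction_on with
      | zero =>
        rw [map_zero, map_zero, zero_mul]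
        exact map_zero _
      | add a b ha hb =>
        rw [map_add Φ, add_mul, ← ha, ← hb, ← map_add]
        refine congrArg _ (funext fun j => ?_)
        rw [map_add]
        rfl
      | tmul b x =>
        rw [hΦ, smul_mul_assoc, ← map_mul, ← hc, coeffMap_regPart, ← map_smul]
        congr 1
        funext j
        simp [co, c₂, cu, φ, Algebra.smul_def, mul_comm]
  have hinj : Function.Injective Φ := (injective_iff_map_eq_zero _).mpr fun t ht => by
    have h0 : co t = 0 := funext fun ij => congrFun (D.regPart_injective (B := B') (n + G.e)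
      (a₁ := fun j => co t (ij.1, j)) (a₂ := 0) (by rw [hco, ht, zero_mul, map_zero])) ij.2
    have h1 : c₂.baseChange B' t = 0 :=
      (LinearEquiv.map_eq_zero_iff (TensorProduct.piScalarRight B B' B'
        (Fin G.r × D.RegIdx (n + G.e)))).mp h0
    have h2 : (s₂.comp c₂).baseChange B' t = t := by rw [hs₂, LinearMap.baseChange_id]; rfl
    rw [← h2, LinearMap.baseChange_comp, LinearMap.comp_apply, h1, map_zero]
  exact ⟨(LinearEquiv.ofInjective Φ hinj).trans (LinearEquiv.ofEq _ _ hrange)⟩

end CurveData

end Fermat.Agent.Jac
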